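import Fermat.Agent.S48.W1.Eis.Defs
import Fermat.Agent.S48.W1.Gam

/-!
# S48 / W1b / task W1-EisMod : modularity of `eisFin ψ`  (~150 lines)

`eisFin ψ = ∑ a, ψ (a 0) • ⇑(eisensteinSeriesMF (le_refl 3) a)` (`eisensteinSeriesMF : ModularForm (Gamma N) k`, its coercion is `eisensteinSeries a k` : `eisensteinSeriesSIF_apply` / `rfl`).
* `mdiff_eisFin`: finite sum of holomorphic functions (`(eisensteinSeriesMF _ a).holo'`, `MDifferentiable.sum`/induction, `MDifferentiable.const_smul`/`mul mdifferentiable_const`; or build `∑ a, ψ (a 0) • eisensteinSeriesMF _ a : ModularForm (Gamma N) 3` and take its `holo'`).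
* `eisFin_slash` (ALL `γ : SL(2,ℤ)`): `SlashAction.sum_slash`, `ModularForm.SL_smul_slash`/`smul_slash`, `eisensteinSeries_slash_apply : eisensteinSeries a k ∣[k] γ = eisensteinSeries (a ᵥ* γ) k`.
* `bdd_eisFin`: by `eisFin_slash` it is a finite combination of `eisensteinSeries b 3`, bounded at `i∞`: `isBoundedAtImInfty_eisensteinSeriesSIF` (or `ModularFormClass.bdd_at_infty`), `Filter.BoundedAtFilter.add`, `.smul`/`const_mul`.
* `hasChar_eisFin`: for `γ ∈ Γ₀(N)` reindex by the bijection `a ↦ a ᵥ* γ` of `Fin 2 → ZMod N` (inverse `b ↦ b ᵥ* γ⁻¹`; `Matrix.vecMul_vecMul`, the image of `γ` in `SL(2, ZMod N)`: `Matrix.SpecialLinearGroup.map (Int.castRingHom (ZMod N))`; look at `gammaSetEquiv` in Mathlib for the coercions): `(a ᵥ* γ) 0 = a 0 * γ₀₀ + a 1 * γ₁₀ = a 0 * γ₀₀`,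
  so `ψ (a 0) = ψ ((a ᵥ* γ) 0) * ψ (lr N γ)` because `γ₀₀ * lr N γ = 1` (`ul_mul_lr`).
-/

set_option autoImplicit false

open UpperHalfPlane ModularForm CongruenceSubgroup EisensteinSeries Complex
open scoped MatrixGroups Manifold Real Matrix

namespace Fermat.Agent.S48.W1

variable {N : ℕ} [NeZero N]

theorem eisFin_eq_sum (ψ : DirichletCharacter ℂ N) :
    eisFin ψ = ∑ a : Fin 2 → ZMod N, ψ (a 0) • eisensteinSeries a 3 := by
  funext z
  simp [eisFin, Finset.sum_apply]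

theorem mdiff_eisFin (ψ : DirichletCharacter ℂ N) : MDiff (eisFin ψ) := by
  rw [eisFin_eq_sum]
  refine Finset.sum_induction _ (fun f : ℍ → ℂ => MDiff f) (fun f g hf hg => hf.add hg)
    mdifferentiable_const ?_
  intro a _
  exact (eisensteinSeriesMF (le_refl 3) a).holo'.const_smul (ψ (a 0))

theorem eisFin_slash (ψ : DirichletCharacter ℂ N) (γ : SL(2, ℤ)) :
    eisFin ψ ∣[(3 : ℤ)] γ = fun z => ∑ a : Fin 2 → ZMod N, ψ (a 0) * eisensteinSeries (a ᵥ* γ) 3 z := by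
  rw [eisFin_eq_sum, SlashAction.sum_slash]
  funext z
  rw [Finset.sum_apply]
  refine Finset.sum_congr rfl fun a _ => ?_
  rw [SL_smul_slash, eisensteinSeries_slash_apply, Pi.smul_apply, smul_eq_mul]

theorem bdd_eisensteinSeries (b : Fin 2 → ZMod N) : IsBoundedAtImInfty (eisensteinSeries b 3) := by
  have h := isBoundedAtImInfty_eisensteinSeriesSIF b (le_refl (3 : ℤ)) 1
  rw [SlashAction.slash_one] at h
  exact h

theorem bdd_eisFin (ψ : DirichletCharacter ℂ N) (γ : SL(2, ℤ)) :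
    IsBoundedAtImInfty (eisFin ψ ∣[(3 : ℤ)] γ) := by
  rw [eisFin_slash]
  have h : ∀ a : Fin 2 → ZMod N, (fun z : ℍ => ψ (a 0) * eisensteinSeries (a ᵥ* γ) 3 z)
      =O[atImInfty] (1 : ℍ → ℝ) := fun a =>
    Asymptotics.IsBigO.const_mul_left (bdd_eisensteinSeries (a ᵥ* γ)) _
  have h2 := Asymptotics.IsBigO.sum (s := Finset.univ) fun a _ => h a
  have h3 : (fun z : ℍ => ∑ a : Fin 2 → ZMod N, ψ (a 0) * eisensteinSeries (a ᵥ* γ) 3 z) =
      ∑ a : Fin 2 → ZMod N, fun z : ℍ => ψ (a 0) * eisensteinSeries (a ᵥ* γ) 3 z := by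
    funext z
    rw [Finset.sum_apply]
  rw [h3]
  exact h2

theorem hasChar_eisFin (ψ : DirichletCharacter ℂ N) : HasChar N 3 ψ (eisFin ψ) := by
  intro γ hγ
  rw [eisFin_slash]
  funext z
  rw [Pi.smul_apply, smul_eq_mul, eisFin, Finset.mul_sum]
  let γ' : SL(2, ZMod N) := Matrix.SpecialLinearGroup.map (Int.castRingHom (ZMod N)) γ
  let e : (Fin 2 → ZMod N) ≃ (Fin 2 → ZMod N) :=
    { toFun := fun a => a ᵥ* (γ' : Matrix (Fin 2) (Fin 2) (ZMod N))
      invFun := fun a => a ᵥ* ((γ'⁻¹ : SL(2, ZMod N)) : Matrix (Fin 2) (Fin 2) (ZMod N))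
      left_inv := fun a => by
        simp only [Matrix.vecMul_vecMul, ← Matrix.SpecialLinearGroup.coe_mul, mul_inv_cancel,
          Matrix.SpecialLinearGroup.coe_one, Matrix.vecMul_one]
      right_inv := fun a => by
        simp only [Matrix.vecMul_vecMul, ← Matrix.SpecialLinearGroup.coe_mul, inv_mul_cancel,
          Matrix.SpecialLinearGroup.coe_one, Matrix.vecMul_one] }
  refine Fintype.sum_equiv e _ _ fun a => ?_
  have h0 : (e a) 0 = a 0 * ((γ 0 0 : ℤ) : ZMod N) := by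
    have h1 : ((γ 1 0 : ℤ) : ZMod N) = 0 := Gamma0_mem.1 hγ
    show (a ᵥ* (γ' : Matrix (Fin 2) (Fin 2) (ZMod N))) 0 = _
    simp [γ', Matrix.vecMul, dotProduct, Fin.sum_univ_two, h1]
  have h2 : ψ (a 0) = ψ (lr N γ) * ψ ((e a) 0) := by
    rw [h0, ← map_mul]
    congr 1
    have := ul_mul_lr hγ
    calc a 0 = a 0 * (((γ 0 0 : ℤ) : ZMod N) * lr N γ) := by rw [this, mul_one]
      _ = _ := by ring
  rw [h2, mul_assoc]
  rfl

end Fermat.Agent.S48.W1
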