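import Fermat.Agent.S48.W1.Eis.Gcd
import Fermat.Agent.S48.W1.Eis.Mod

/-!
# S48 / W1b / task W1-EisMain : `H_ψ ∈ M₃(Γ₁(N))` with character `ψ` and `q`-expansion `eisSer ψ`  (~150 lines)

`c₃ = 2 * ((-2 π I)^3 / 2) ≠ 0`, `L = ∑' r, ψ r (r³)⁻¹`, `κ = L / c₃`.  By `eisAll_eq_q` and `eisAll_eq_fin`: `κ * eisFin ψ z = ∑' n : ℕ+, sig ψ n * q^n`.
* `exists_modularForm`: twin of `exists_cuspForm` (`W1/Defs.lean`) for `ModularForm` (`bdd_at_cusps'`, `OnePoint.isBoundedAt_iff_forall_SL2Z`).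
* `H` := the modular form with underlying function `κ • eisFin ψ`: `mdiff_eisFin`, `hasChar_eisFin` (for `γ ∈ Γ₁(N)`: `lr N γ = 1`, `map_one`; `mem_Gamma1_iff`), `bdd_eisFin`, `ModularForm.SL_smul_slash`.
* `qExpansion 1 H = eisSer ψ`: `PowerSeries.ext`, `ModularFormClass.qExpansion_coeff_unique one_pos (one_mem_strictPeriods N)` as in Mathlib's `EisensteinSeries.E_qExpansion_coeff`: needs `∀ τ, HasSum (fun m ↦ sig ψ m • 𝕢 1 τ ^ m) (H τ)`:
  `summable_sig ψ (norm_exp_two_pi_I_lt_one τ)`, `sig ψ 0 = 0` (`Nat.divisorsAntidiagonal_zero`), `tsum_pnat_eq_tsum_succ` / `tsum_zero_pnat_eq_tsum_nat`, `Function.Periodic.qParam`.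
-/

set_option autoImplicit false

open UpperHalfPlane ModularForm CongruenceSubgroup EisensteinSeries Complex
open scoped MatrixGroups Manifold Real

namespace Fermat.Agent.S48.W1

/-- Build a modular form on `Γ₁(N)` from analytic data. -/
theorem exists_modularForm (N : ℕ) [NeZero N] {k : ℤ} (F : ℍ → ℂ) (hF : MDiff F)
    (hinv : ∀ γ ∈ Gamma1 N, F ∣[k] γ = F)
    (hbdd : ∀ γ : SL(2, ℤ), IsBoundedAtImInfty (F ∣[k] γ)) :
    ∃ g : ModularForm (Gamma1 N) k, ⇑g = F := by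
  refine ⟨{ toFun := F, slash_action_eq' := ?_, holo' := hF, bdd_at_cusps' := ?_ }, rfl⟩
  · rintro _ ⟨γ, hγ, rfl⟩
    exact hinv γ hγ
  · intro c hc
    rw [Subgroup.IsArithmetic.isCusp_iff_isCusp_SL2Z] at hc
    rw [OnePoint.isBoundedAt_iff_forall_SL2Z hc]
    intro γ _
    exact hbdd γ

/-- **The Eisenstein series `H_ψ`.** -/
theorem exists_eis (N : ℕ) [NeZero N] (ψ : DirichletCharacter ℂ N) (hψ : ψ (-1) = -1) :
    ∃ H : ModularForm (Gamma1 N) 3, HasChar N 3 ψ H ∧ qExpansion 1 H = eisSer ψ := by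
  set c₃ : ℂ := 2 * ((-2 * π * Complex.I) ^ 3 / 2) with hc₃
  have hc₃0 : c₃ ≠ 0 := by
    rw [hc₃]
    have hπ : (π : ℂ) ≠ 0 := Complex.ofReal_ne_zero.2 Real.pi_ne_zero
    have hI : Complex.I ≠ 0 := Complex.I_ne_zero
    have h2 : (-2 * π * Complex.I : ℂ) ≠ 0 := mul_ne_zero (mul_ne_zero (by norm_num) hπ) hI
    exact mul_ne_zero two_ne_zero (div_ne_zero (pow_ne_zero _ h2) two_ne_zero)
  set L : ℂ := ∑' r : ℕ, ψ (r : ZMod N) * ((r : ℂ) ^ 3)⁻¹ with hL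
  set κ : ℂ := L / c₃ with hκ
  have hval : ∀ z : ℍ, κ * eisFin ψ z =
      ∑' n : ℕ+, sig ψ n * cexp (2 * π * Complex.I * z) ^ (n : ℕ) := by
    intro z
    have h1 := eisAll_eq_q ψ hψ z
    rw [eisAll_eq_fin] at h1
    rw [hκ, div_mul_eq_mul_div, h1, mul_div_assoc, mul_comm, div_mul_cancel₀]
    exact hc₃0
  have hchar : HasChar N 3 ψ (κ • eisFin ψ) := by
    intro γ hγ
    rw [ModularForm.SL_smul_slash, hasChar_eisFin ψ γ hγ, smul_comm]
  obtain ⟨H, hH⟩ := exists_modularForm N (k := 3) (κ • eisFin ψ) ((mdiff_eisFin ψ).const_smul κ)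
    (fun γ hγ => by
      rw [hchar γ (Gamma1_in_Gamma0 N hγ)]
      have h1 : lr N γ = 1 := ((Gamma1_mem N γ).1 hγ).2.1
      rw [h1, map_one, one_smul])
    (fun γ => by
      rw [ModularForm.SL_smul_slash]
      exact (bdd_eisFin ψ γ).const_smul_left κ)
  refine ⟨H, by rw [hH]; exact hchar, ?_⟩
  ext m
  rw [eisSer, PowerSeries.coeff_mk]
  refine (ModularFormClass.qExpansion_coeff_unique one_pos (one_mem_strictPeriods N) ?_ m).symm
  intro τ
  have hS := summable_sig ψ (norm_exp_two_pi_I_lt_one τ)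
  have h0 : sig ψ 0 = 0 := by rw [sig, Nat.divisorsAntidiagonal_zero, Finset.sum_empty]
  have hq : Function.Periodic.qParam (1 : ℝ) (τ : ℂ) = cexp (2 * π * Complex.I * τ) := by
    rw [Function.Periodic.qParam, Complex.ofReal_one, div_one]
  have hHτ : H τ = ∑' n : ℕ, sig ψ n * cexp (2 * π * Complex.I * τ) ^ n := by
    have h1 : H τ = κ * eisFin ψ τ := by rw [hH]; rfl
    rw [h1, hval, tsum_pnat_eq_tsum_succ (f := fun n => sig ψ n * cexp (2 * π * Complex.I * τ) ^ n),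
      hS.tsum_eq_zero_add, h0, zero_mul, zero_add]
  rw [hHτ, hq]
  simp only [smul_eq_mul]
  exact hS.hasSum

end Fermat.Agent.S48.W1
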