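import Fermat.Agent.S48.W1.Eis.Defs
import Fermat.Agent.S23.Basic

/-!
# S48 / W1b / task W1-EisSer : formal properties of `eisSer ψ`  (~100 lines, elementary)

* `coeff_one`: `Nat.divisorsAntidiagonal 1 = {(1,1)}` (`Nat.divisorsAntidiagonal_one`), `map_one`.
* `map_eisSer`: `PowerSeries.ext`, `PowerSeries.coeff_map`, `PowerSeries.coeff_mk`, `map_sum`, `map_mul`, `map_pow`, `map_natCast`, `MulChar.ringHomComp_apply`.
* `eisSer_mem_bddSpan`: `eisSer ψ = ∑ c : ZMod N, ψ c • S c`, `S c = PowerSeries.mk fun n => ∑ x ∈ n.divisorsAntidiagonal with (x.1 : ZMod N) = c, (x.2 : ℂ)^2` (coefficients are natural numbers: `S23.IsIntSeries`, `S23.IsIntSeries.bddDen`, `S23.BddDen.mem_bddSpan`);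
  `Submodule.sum_mem`, `Submodule.smul_mem`; the identity of coefficients: `Finset.sum_fiberwise`-like (`Finset.sum_comm`, `Finset.sum_ite_eq`, `Finset.sum_filter`).
  (`S23.bddSpan : Submodule ℂ (PowerSeries ℂ)` is the span of the series with bounded denominators; see `Fermat/Agent/S23/Basic.lean`.)
-/

set_option autoImplicit false

open UpperHalfPlane ModularForm CongruenceSubgroup
open scoped MatrixGroups Manifold

namespace Fermat.Agent.S48.W1

variable {N : ℕ}

theorem coeff_one_eisSer (ψ : DirichletCharacter ℂ N) : PowerSeries.coeff 1 (eisSer ψ) = 1 := by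
  rw [eisSer, PowerSeries.coeff_mk, sig, Nat.divisorsAntidiagonal_one, Finset.sum_singleton]
  simp

theorem eisSer_ne_zero (ψ : DirichletCharacter ℂ N) : eisSer ψ ≠ 0 := by
  intro h
  have := coeff_one_eisSer ψ
  rw [h, map_zero] at this
  exact zero_ne_one this

theorem map_eisSer (σ : ℂ →+* ℂ) (ψ : DirichletCharacter ℂ N) :
    PowerSeries.map σ (eisSer ψ) = eisSer (ψ.ringHomComp σ) := by
  ext n
  rw [PowerSeries.coeff_map, eisSer, eisSer, PowerSeries.coeff_mk, PowerSeries.coeff_mk, sig, sig,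
    map_sum]
  refine Finset.sum_congr rfl fun x _ => ?_
  rw [map_mul, map_pow, map_natCast σ, MulChar.ringHomComp_apply]

theorem eisSer_mem_bddSpan [NeZero N] (ψ : DirichletCharacter ℂ N) : eisSer ψ ∈ S23.bddSpan := by
  classical
  let S : ZMod N → PowerSeries ℂ := fun c => PowerSeries.mk fun n =>
    ∑ x ∈ n.divisorsAntidiagonal, if (x.1 : ZMod N) = c then (x.2 : ℂ) ^ 2 else 0
  have hS : ∀ c, S23.IsIntSeries (S c) := by
    intro c n
    refine ⟨∑ x ∈ n.divisorsAntidiagonal, if (x.1 : ZMod N) = c then (x.2 : ℤ) ^ 2 else 0, ?_⟩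
    simp only [S, PowerSeries.coeff_mk]
    push_cast
    rfl
  have h : eisSer ψ = ∑ c : ZMod N, ψ c • S c := by
    ext n
    rw [map_sum]
    simp only [S, eisSer, sig, PowerSeries.coeff_smul, PowerSeries.coeff_mk, smul_eq_mul,
      Finset.mul_sum]
    rw [Finset.sum_comm]
    refine Finset.sum_congr rfl fun x _ => ?_
    simp
  rw [h]
  exact Submodule.sum_mem _ fun c _ => Submodule.smul_mem _ _ (hS c).bddDen.mem_bddSpan

end Fermat.Agent.S48.W1
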