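import Fermat.Agent.S48.W1.Defs

/-!
# S48 / W1b / chapter HPSI : the weight three Eisenstein series `H_ψ = ∑_n (∑_{c m = n} ψ(c) m²) q^n` : definitions

`ψ` an odd Dirichlet character modulo `N`.
* `sig ψ n = ∑_{c m = n} ψ(c) m²`, `eisSer ψ = ∑ sig ψ n X^n`;
* `eisAll ψ z = ∑_{(c,d) ∈ ℤ²} ψ(c) (c z + d)⁻³`  (the term `(0,0)` is `0`);
* `eisFin ψ z = ∑_{a ∈ (ℤ/N)²} ψ(a₀) E_a(z)`, `E_a` = Mathlib's `eisensteinSeries a 3` (sum over COPRIME pairs `≡ a`).
-/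

set_option autoImplicit false

open UpperHalfPlane ModularForm CongruenceSubgroup EisensteinSeries
open scoped MatrixGroups Manifold

namespace Fermat.Agent.S48.W1

variable {N : ℕ}

/-- `∑_{c m = n} ψ(c) m²`. -/
noncomputable def sig (ψ : DirichletCharacter ℂ N) (n : ℕ) : ℂ :=
  ∑ x ∈ n.divisorsAntidiagonal, ψ (x.1 : ZMod N) * (x.2 : ℂ) ^ 2

/-- the `q`-series of `H_ψ`. -/
noncomputable def eisSer (ψ : DirichletCharacter ℂ N) : PowerSeries ℂ := PowerSeries.mk (sig ψ)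

/-- the sum over the full lattice. -/
noncomputable def eisAll (ψ : DirichletCharacter ℂ N) (z : ℍ) : ℂ :=
  ∑' v : Fin 2 → ℤ, ψ ((v 0 : ℤ) : ZMod N) * eisSummand 3 v z

/-- the finite combination of Mathlib's Eisenstein series of level `Γ(N)`. -/
noncomputable def eisFin [NeZero N] (ψ : DirichletCharacter ℂ N) (z : ℍ) : ℂ :=
  ∑ a : Fin 2 → ZMod N, ψ (a 0) * eisensteinSeries a 3 z

end Fermat.Agent.S48.W1
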