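import Fermat.Agent.S48.W1.Eis.QExp

/-!
# S48 / W1b / task W1-EisGcd : the full lattice sum is a multiple of the finite combination `eisFin`  (~200 lines, TWIN of a Mathlib proof)

TWIN of `tsum_eisSummand_eq_riemannZeta_mul_eisensteinSeries` (`Mathlib/NumberTheory/ModularForms/EisensteinSeries/QExpansion.lean`, 30 lines) with the weight `ψ(v 0)`.
1. `cop_eq`: `∑' v : gammaSet 1 1 0, ψ (v 0) * eisSummand 3 v z = eisFin ψ z`.  The coprime pairs are partitioned by their class `a = (↑) ∘ v : Fin 2 → ZMod N`: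
   equivalence `gammaSet 1 1 0 ≃ Σ a : Fin 2 → ZMod N, gammaSet N 1 a` (`v ↦ ⟨(↑) ∘ v, v, rfl, _⟩`; membership in `gammaSet 1 1 0` is only `(v 0).gcd (v 1) = 1`: `gammaSet_one_mem_iff`), `Equiv.tsum_eq`, `Summable.tsum_sigma'` / `tsum_sigma` + `tsum_fintype`;
   on `gammaSet N 1 a`: `ψ (v 0) = ψ (a 0)` (`congrFun v.2.1 0`), `tsum_mul_left`, `eisensteinSeries` is by definition `∑' x : gammaSet N 1 a, eisSummand k x z`.
   Summability everywhere from `summable_eisAll ψ z` (`.subtype`, `Equiv.summable_iff`).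
2. `gammaSetDivGcdSigmaEquiv.symm.tsum_eq`, `Summable.tsum_sigma`: `eisAll ψ z = ∑' r : ℕ, ∑' v : gammaSet 1 r 0, ψ (v 0) * eisSummand 3 v z`.
3. For `r ≠ 0`: `v = r • v'`, `v' = divIntMap r v ∈ gammaSet 1 1 0` (`gammaSetDivGcdEquiv r`, `gammaSet_eq_gcd_mul_divIntMap`, `eisSummand_of_gammaSet_eq_divIntMap`): `ψ (v 0) = ψ r * ψ (v' 0)`, `eisSummand 3 v z = (r^3)⁻¹ * eisSummand 3 v' z`.
   For `r = 0`: `v = 0`, `eisSummand 3 0 z = 0`, and `((0:ℂ)^3)⁻¹ = 0`.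
4. `tsum_mul_right`.
-/

set_option autoImplicit false

open UpperHalfPlane ModularForm CongruenceSubgroup EisensteinSeries Complex
open scoped MatrixGroups Manifold Real

namespace Fermat.Agent.S48.W1

variable {N : ℕ} [NeZero N]

namespace Gcd

/-- coprime pairs, partitioned by their class modulo `N`. -/
def sigmaEquiv (N : ℕ) : (Σ a : Fin 2 → ZMod N, gammaSet N 1 a) ≃ gammaSet 1 1 0 where
  toFun p := ⟨p.2.1, (gammaSet_one_mem_iff 1 _).2 p.2.2.2⟩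
  invFun v := ⟨(↑) ∘ v.1, ⟨v.1, rfl, (gammaSet_one_mem_iff 1 _).1 v.2⟩⟩
  left_inv := by
    rintro ⟨a, v, rfl, hv⟩
    rfl
  right_inv _ := rfl

theorem sigmaEquiv_coe (N : ℕ) (p : Σ a : Fin 2 → ZMod N, gammaSet N 1 a) :
    ((sigmaEquiv N p : gammaSet 1 1 0) : Fin 2 → ℤ) = p.2.1 := rfl

end Gcd

open Gcd in
theorem cop_eq (ψ : DirichletCharacter ℂ N) (z : ℍ) :
    ∑' v : gammaSet 1 1 0, ψ (((v : Fin 2 → ℤ) 0 : ℤ) : ZMod N) * eisSummand 3 v z = eisFin ψ z := by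
  have hs : Summable fun v : gammaSet 1 1 0 =>
      ψ (((v : Fin 2 → ℤ) 0 : ℤ) : ZMod N) * eisSummand 3 v z :=
    (summable_eisAll ψ z).subtype _
  have hs2 : Summable fun p : (Σ a : Fin 2 → ZMod N, gammaSet N 1 a) =>
      ψ (((p.2 : Fin 2 → ℤ) 0 : ℤ) : ZMod N) * eisSummand 3 p.2 z :=
    (sigmaEquiv N).summable_iff.2 hs
  rw [← (sigmaEquiv N).tsum_eq]
  simp only [sigmaEquiv_coe]
  rw [hs2.tsum_sigma, tsum_fintype, eisFin]
  refine Finset.sum_congr rfl fun a _ => ?_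
  rw [eisensteinSeries, ← tsum_mul_left]
  refine tsum_congr fun v => ?_
  have : (((v : Fin 2 → ℤ) 0 : ℤ) : ZMod N) = a 0 := congrFun v.2.1 0
  rw [this]

theorem eisAll_eq_fin (ψ : DirichletCharacter ℂ N) (z : ℍ) :
    eisAll ψ z = (∑' r : ℕ, ψ (r : ZMod N) * ((r : ℂ) ^ 3)⁻¹) * eisFin ψ z := by
  have hs := summable_eisAll ψ z
  have hs2 : Summable fun p : (Σ r : ℕ, gammaSet 1 r 0) =>
      ψ (((p.2 : Fin 2 → ℤ) 0 : ℤ) : ZMod N) * eisSummand 3 p.2 z := by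
    have := gammaSetDivGcdSigmaEquiv.symm.summable_iff.2 hs
    refine this.congr fun p => ?_
    simp only [Function.comp_apply, gammaSetDivGcdSigmaEquiv_symm_eq]
  unfold eisAll
  rw [← gammaSetDivGcdSigmaEquiv.symm.tsum_eq]
  simp only [gammaSetDivGcdSigmaEquiv_symm_eq]
  rw [hs2.tsum_sigma, ← tsum_mul_right]
  refine tsum_congr fun r => ?_
  have key : ∀ v : gammaSet 1 r 0, ψ (((v : Fin 2 → ℤ) 0 : ℤ) : ZMod N) * eisSummand 3 v z =
      ψ (r : ZMod N) * ((r : ℂ) ^ 3)⁻¹ *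
        (ψ (((divIntMap r (v : Fin 2 → ℤ)) 0 : ℤ) : ZMod N) *
          eisSummand 3 (divIntMap r (v : Fin 2 → ℤ)) z) := by
    intro v
    have h1 := eisSummand_of_gammaSet_eq_divIntMap 3 z v
    have h2 : ((v : Fin 2 → ℤ) 0 : ℤ) = r * (divIntMap r (v : Fin 2 → ℤ)) 0 := by
      have := congrFun (gammaSet_eq_gcd_mul_divIntMap v.2) 0
      simpa using this
    have h3 : (((v : Fin 2 → ℤ) 0 : ℤ) : ZMod N) =
        (r : ZMod N) * (((divIntMap r (v : Fin 2 → ℤ)) 0 : ℤ) : ZMod N) := by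
      conv_lhs => rw [h2]
      push_cast
      rfl
    rw [h1, h3, map_mul]
    have h4 : ((r : ℂ) ^ (3 : ℤ))⁻¹ = ((r : ℂ) ^ 3)⁻¹ := by
      have : (3 : ℤ) = ((3 : ℕ) : ℤ) := rfl
      rw [this, zpow_natCast]
    rw [h4]
    ring
  rw [tsum_congr key, tsum_mul_left]
  rcases eq_or_ne r 0 with rfl | hr
  · simp
  · have : NeZero r := ⟨hr⟩
    congr 1
    rw [← cop_eq]
    exact (gammaSetDivGcdEquiv r).tsum_eq
      (fun v : gammaSet 1 1 0 => ψ (((v : Fin 2 → ℤ) 0 : ℤ) : ZMod N) * eisSummand 3 v z)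

end Fermat.Agent.S48.W1
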