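import Fermat.Agent.S48.W1.Eis.Defs

/-!
# S48 / W1b / task W1-EisQ : the `q`-expansion of the full lattice sum  (~200 lines, TWIN of a Mathlib proof)

TWIN of `tsum_eisSummand_eq_tsum_sigma_mul_cexp_pow` (`Mathlib/NumberTheory/ModularForms/EisensteinSeries/QExpansion.lean`, 25 lines), with the weight `ψ(c)` and `k = 3` (ODD weight, ODD character).
0. `ψ 0 = 0`: `hψ` forces `N ≠ 1` (in `ZMod 1` we have `-1 = 1`, `map_one`), so `ZMod N` is nontrivial (`N = 0` or `N ≥ 2`: `ZMod.nontrivial_iff`), `MulChar.map_zero` / `MulChar.map_nonunit`.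
1. `summable`: `‖ψ x‖ ≤ 1` (`DirichletCharacter.norm_le_one`), `summable_norm_eisSummand (k := 3)`, `Summable.of_norm_bounded`.
2. `(finTwoArrowEquiv ℤ).symm.tsum_eq`, `Summable.tsum_prod`: `eisAll ψ z = ∑' c : ℤ, ψ c * ∑' d : ℤ, (c z + d)^(-3)`.
3. `tsum_int_eq_zero_add_two_mul_tsum_pnat` (the function `c ↦ ψ c * ∑' d, (c z + d)⁻³` is EVEN: `ψ(-c) = -ψ(c)` (`hψ`, `neg_one_mul`, `map_mul`) and `∑' d (-c z + d)⁻³ = -∑' d (c z + d)⁻³` (`tsum_comp_neg`, `Odd.neg_zpow`/`neg_pow`)); the term `c = 0` vanishes by 0.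
4. `qExpansion_identity_pnat (k := 2) _ ⟨c * z, _⟩`.
5. `sum_prod`: `∑' (c : ℕ+) (m : ℕ+), ψ c * m² * r^(c m) = ∑' n : ℕ+, sig ψ n * r^n` for `‖r‖ < 1`: TWIN of `tsum_prod_pow_eq_tsum_sigma` (grep it in Mathlib: it uses `sigmaAntidiagonalEquivProd : (Σ n : ℕ+, divisorsAntidiagonal n) ≃ ℕ+ × ℕ+`, `Summable.tsum_sigma`, and the summability lemma `summable_prod_mul_pow`/`summable_divisorsAntidiagonal_aux`).
-/

set_option autoImplicit false

open UpperHalfPlane ModularForm CongruenceSubgroup EisensteinSeries Complex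
open scoped MatrixGroups Manifold Real

namespace Fermat.Agent.S48.W1

variable {N : ℕ}

theorem map_zero_of_odd (ψ : DirichletCharacter ℂ N) (hψ : ψ (-1) = -1) : ψ 0 = 0 := by
  have hN : N ≠ 1 := by
    rintro rfl
    have : (-1 : ZMod 1) = 1 := Subsingleton.elim _ _
    rw [this, map_one] at hψ
    norm_num at hψ
  have : Nontrivial (ZMod N) := ZMod.nontrivial_iff.2 hN
  exact MulChar.map_zero ψ

theorem summable_eisAll (ψ : DirichletCharacter ℂ N) (z : ℍ) :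
    Summable fun v : Fin 2 → ℤ => ψ ((v 0 : ℤ) : ZMod N) * eisSummand 3 v z := by
  refine Summable.of_norm_bounded (summable_norm_eisSummand (k := 3) le_rfl z) fun v => ?_
  rw [norm_mul]
  calc ‖ψ ((v 0 : ℤ) : ZMod N)‖ * ‖eisSummand 3 v z‖ ≤ 1 * ‖eisSummand 3 v z‖ :=
        mul_le_mul_of_nonneg_right (DirichletCharacter.norm_le_one ψ _) (norm_nonneg _)
    _ = _ := one_mul _

theorem norm_sig_le (ψ : DirichletCharacter ℂ N) (n : ℕ) : ‖sig ψ n‖ ≤ (n : ℝ) ^ 3 := by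
  unfold sig
  calc ‖∑ x ∈ n.divisorsAntidiagonal, ψ (x.1 : ZMod N) * (x.2 : ℂ) ^ 2‖
      ≤ ∑ x ∈ n.divisorsAntidiagonal, ‖ψ (x.1 : ZMod N) * (x.2 : ℂ) ^ 2‖ := norm_sum_le _ _
    _ ≤ ∑ _x ∈ n.divisorsAntidiagonal, (n : ℝ) ^ 2 := by
        refine Finset.sum_le_sum fun x hx => ?_
        rw [norm_mul, norm_pow, Complex.norm_natCast]
        have h1 : x.2 ≤ n :=
          Nat.le_of_dvd (Nat.pos_of_ne_zero (Nat.mem_divisorsAntidiagonal.1 hx).2)
            (Dvd.intro_left _ (Nat.mem_divisorsAntidiagonal.1 hx).1)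
        have h2 : (x.2 : ℝ) ≤ n := by exact_mod_cast h1
        calc ‖ψ (x.1 : ZMod N)‖ * (x.2 : ℝ) ^ 2 ≤ 1 * (n : ℝ) ^ 2 := by
              apply mul_le_mul (DirichletCharacter.norm_le_one ψ _) _ (by positivity) zero_le_one
              exact pow_le_pow_left₀ (Nat.cast_nonneg _) h2 2
          _ = _ := one_mul _
    _ = (n.divisorsAntidiagonal.card : ℝ) * (n : ℝ) ^ 2 := by
        rw [Finset.sum_const, nsmul_eq_mul]
    _ ≤ (n : ℝ) * (n : ℝ) ^ 2 := by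
        apply mul_le_mul_of_nonneg_right _ (by positivity)
        have : n.divisorsAntidiagonal.card ≤ n := by
          rw [← Nat.map_div_right_divisors, Finset.card_map]
          exact Nat.card_divisors_le_self n
        exact_mod_cast this
    _ = (n : ℝ) ^ 3 := by ring

theorem summable_sig (ψ : DirichletCharacter ℂ N) {r : ℂ} (hr : ‖r‖ < 1) :
    Summable fun n : ℕ => sig ψ n * r ^ n := by
  refine Summable.of_norm_bounded (summable_norm_pow_mul_geometric_of_norm_lt_one 3 hr) fun n => ?_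
  rw [norm_mul, norm_mul, norm_pow (n : ℂ), Complex.norm_natCast]
  exact mul_le_mul_of_nonneg_right (norm_sig_le ψ n) (norm_nonneg _)

theorem summable_prod_psi (ψ : DirichletCharacter ℂ N) {r : ℂ} (hr : ‖r‖ < 1) :
    Summable fun c : ℕ+ × ℕ+ =>
      ψ ((c.1 : ℕ) : ZMod N) * ((c.2 : ℕ) : ℂ) ^ 2 * r ^ ((c.1 : ℕ) * (c.2 : ℕ)) := by
  refine Summable.of_norm_bounded (summable_prod_mul_pow (𝕜 := ℂ) 2 hr).norm fun c => ?_
  rw [mul_assoc, norm_mul]
  calc ‖ψ ((c.1 : ℕ) : ZMod N)‖ * ‖((c.2 : ℕ) : ℂ) ^ 2 * r ^ ((c.1 : ℕ) * (c.2 : ℕ))‖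
      ≤ 1 * ‖((c.2 : ℕ) : ℂ) ^ 2 * r ^ ((c.1 : ℕ) * (c.2 : ℕ))‖ :=
        mul_le_mul_of_nonneg_right (DirichletCharacter.norm_le_one ψ _) (norm_nonneg _)
    _ = _ := one_mul _

theorem sum_prod (ψ : DirichletCharacter ℂ N) {r : ℂ} (hr : ‖r‖ < 1) :
    ∑' (c : ℕ+) (m : ℕ+), ψ ((c : ℕ) : ZMod N) * ((m : ℕ) : ℂ) ^ 2 * r ^ ((c : ℕ) * (m : ℕ)) =
      ∑' n : ℕ+, sig ψ n * r ^ (n : ℕ) := by
  have hs := summable_prod_psi ψ hr
  rw [← hs.tsum_prod, ← sigmaAntidiagonalEquivProd.tsum_eq]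
  have hs2 : Summable fun c : (n : ℕ+) × (n : ℕ).divisorsAntidiagonal =>
      ψ (((sigmaAntidiagonalEquivProd c).1 : ℕ) : ZMod N) *
        (((sigmaAntidiagonalEquivProd c).2 : ℕ) : ℂ) ^ 2 *
        r ^ (((sigmaAntidiagonalEquivProd c).1 : ℕ) * ((sigmaAntidiagonalEquivProd c).2 : ℕ)) :=
    sigmaAntidiagonalEquivProd.summable_iff.2 hs
  rw [hs2.tsum_sigma]
  refine tsum_congr fun n => ?_
  rw [tsum_fintype, sig, Finset.sum_mul, Finset.univ_eq_attach]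
  rw [← (n : ℕ).divisorsAntidiagonal.sum_attach]
  refine Finset.sum_congr rfl fun x _ => ?_
  have hx := (Nat.mem_divisorsAntidiagonal.1 x.2).1
  simp only [sigmaAntidiagonalEquivProd, divisorsAntidiagonalFactors,
    Equiv.coe_fn_mk, PNat.mk_coe]
  rw [hx]

theorem eisAll_eq_q (ψ : DirichletCharacter ℂ N) (hψ : ψ (-1) = -1) (z : ℍ) :
    eisAll ψ z = 2 * ((-2 * π * Complex.I) ^ 3 / 2) *
      ∑' n : ℕ+, sig ψ n * cexp (2 * π * Complex.I * z) ^ (n : ℕ) := by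
  have h0 := map_zero_of_odd ψ hψ
  have hsp : Summable fun x : ℤ × ℤ => ψ ((x.1 : ℤ) : ZMod N) * eisSummand 3 ![x.1, x.2] z := by
    refine (finTwoArrowEquiv ℤ).summable_iff.mp <| (summable_eisAll ψ z).congr (fun v ↦ ?_)
    simp [show ![v 0, v 1] = v from List.ofFn_inj.mp rfl]
  have e1 : eisAll ψ z = ∑' x : ℤ × ℤ, ψ ((x.1 : ℤ) : ZMod N) * eisSummand 3 ![x.1, x.2] z := by
    unfold eisAll
    rw [← (finTwoArrowEquiv ℤ).symm.tsum_eq]
    rfl
  set f : ℤ → ℂ := fun c => ∑' d : ℤ, ψ ((c : ℤ) : ZMod N) * eisSummand 3 ![c, d] z with hf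
  have hfs : Summable f := hsp.prod
  have hneg : ∀ c : ℤ, ψ (((-c : ℤ)) : ZMod N) = - ψ ((c : ℤ) : ZMod N) := by
    intro c
    rw [Int.cast_neg, ← neg_one_mul, map_mul, hψ, neg_one_mul]
  have hfe : f.Even := by
    intro c
    simp only [hf]
    rw [← tsum_comp_neg]
    refine tsum_congr fun d => ?_
    rw [hneg]
    simp only [eisSummand, Matrix.cons_val_zero, Matrix.cons_val_one, Int.cast_neg]
    have : -(c : ℂ) * (z : ℂ) + -(d : ℂ) = -((c : ℂ) * z + d) := by ring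
    rw [this, show (-(3 : ℤ)) = -3 from rfl, zpow_neg, zpow_neg]
    have h3 : (-((c : ℂ) * z + d)) ^ (3 : ℤ) = -(((c : ℂ) * z + d) ^ (3 : ℤ)) := by
      have : (3 : ℤ) = ((3 : ℕ) : ℤ) := rfl
      rw [this, zpow_natCast, zpow_natCast]
      ring
    rw [h3, inv_neg]
    ring
  rw [e1, hsp.tsum_prod, tsum_int_eq_zero_add_two_mul_tsum_pnat hfe hfs]
  have hf0 : f 0 = 0 := by
    simp only [hf, Int.cast_zero, h0, zero_mul, tsum_zero]
  rw [hf0, zero_add, nsmul_eq_mul, mul_assoc]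
  congr 1
  set r := cexp (2 * π * Complex.I * z) with hr
  have hr1 : ‖r‖ < 1 := norm_exp_two_pi_I_lt_one z
  rw [← sum_prod ψ hr1, ← tsum_mul_left]
  refine tsum_congr fun c => ?_
  have H := qExpansion_identity_pnat (k := 2) (by norm_num) ⟨c * z, by simpa using z.2⟩
  simp only [hf]
  rw [tsum_mul_left]
  have e2 : ∑' d : ℤ, eisSummand 3 ![((c : ℕ) : ℤ), d] z =
      ∑' n : ℤ, 1 / (((⟨c * z, by simpa using z.2⟩ : ℍ) : ℂ) + n) ^ (2 + 1) := by
    refine tsum_congr fun d => ?_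
    simp only [eisSummand, Matrix.cons_val_zero, Matrix.cons_val_one]
    rw [zpow_neg, one_div]
    congr 1
  have e3 : ((((c : ℕ+) : ℕ) : ℤ) : ZMod N) = (((c : ℕ+) : ℕ) : ZMod N) := by push_cast; rfl
  rw [show (((c : ℕ+) : ℤ)) = (((c : ℕ+) : ℕ) : ℤ) from rfl, e2, H, e3, ← tsum_mul_left,
    ← tsum_mul_left, ← tsum_mul_left]
  refine tsum_congr fun m => ?_
  have e4 : cexp (2 * π * Complex.I * ((⟨c * z, by simpa using z.2⟩ : ℍ) : ℂ)) ^ (m : ℕ) =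
      r ^ ((c : ℕ) * (m : ℕ)) := by
    rw [hr, ← Complex.exp_nat_mul, ← Complex.exp_nat_mul]
    congr 1
    push_cast
    ring
  rw [e4]
  norm_num
  ring

end Fermat.Agent.S48.W1
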